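import Mathlib

/-!
# S16 / helper131: the operators `U_p`, `V_p` on formal power series

`Vp = PowerSeries.expand p` (Mathlib) and `Uop p` with `(Uop p a)_n = a_{pn}`.
-/

set_option autoImplicit false

namespace Fermat.Agent.S16.H131

open PowerSeries

variable {R : Type*} [CommRing R]

/-- `U_p` on power series: `(U_p a)_n = a_{p n}`. -/
noncomputable def Uop (p : ℕ) : PowerSeries R →ₗ[R] PowerSeries R where
  toFun a := PowerSeries.mk fun n => coeff (p * n) a
  map_add' a b := by ext n; simp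
  map_smul' c a := by ext n; simp

@[simp] theorem coeff_Uop (p n : ℕ) (a : PowerSeries R) :
    coeff n (Uop p a) = coeff (p * n) a := by
  simp [Uop]

theorem Uop_expand (p : ℕ) (hp : p ≠ 0) (a : PowerSeries R) :
    Uop p (expand p hp a) = a := by
  ext n
  simp

theorem Uop_expand_mul (p : ℕ) (hp : p ≠ 0) (a b : PowerSeries R) :
    Uop p (expand p hp a * b) = a * Uop p b := by
  ext n
  rw [coeff_Uop, coeff_mul, coeff_mul]
  symm
  refine Finset.sum_of_injOn (fun ij => (p * ij.1, p * ij.2)) ?_ ?_ ?_ ?_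
  · rintro ⟨i, j⟩ - ⟨i', j'⟩ - h
    simp only [Prod.mk.injEq] at h
    have hp' : 0 < p := Nat.pos_of_ne_zero hp
    exact Prod.ext (Nat.eq_of_mul_eq_mul_left hp' h.1) (Nat.eq_of_mul_eq_mul_left hp' h.2)
  · rintro ⟨i, j⟩ hij
    simp only [Finset.mem_coe, Finset.HasAntidiagonal.mem_antidiagonal] at hij ⊢
    rw [← mul_add, hij]
  · rintro ⟨i, j⟩ hij hnot
    simp only [Finset.HasAntidiagonal.mem_antidiagonal] at hij
    by_cases hdvd : p ∣ i
    · exfalso
      apply hnot
      obtain ⟨i', rfl⟩ := hdvd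
      have hj : p ∣ j := by
        have : p ∣ p * i' + j := hij ▸ dvd_mul_right p n
        exact (Nat.dvd_add_right (dvd_mul_right p i')).mp this
      obtain ⟨j', rfl⟩ := hj
      refine ⟨(i', j'), ?_, rfl⟩
      simp only [Finset.mem_coe, Finset.HasAntidiagonal.mem_antidiagonal]
      have hp' : 0 < p := Nat.pos_of_ne_zero hp
      exact Nat.eq_of_mul_eq_mul_left hp' (by rw [mul_add]; exact hij)
    · rw [coeff_expand_of_not_dvd p hp a hdvd, zero_mul]
  · rintro ⟨i, j⟩ -
    simp

theorem Uop_mul_expand (p : ℕ) (hp : p ≠ 0) (a b : PowerSeries R) :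
    Uop p (b * expand p hp a) = Uop p b * a := by
  rw [mul_comm, Uop_expand_mul, mul_comm]

theorem map_Uop {S : Type*} [CommRing S] (f : R →+* S) (p : ℕ) (a : PowerSeries R) :
    PowerSeries.map f (Uop p a) = Uop p (PowerSeries.map f a) := by
  ext n
  simp

theorem Uop_C (p : ℕ) (hp : p ≠ 0) (c : R) : Uop p (C c : PowerSeries R) = C c := by
  ext n
  rw [coeff_Uop, coeff_C, coeff_C]
  by_cases hn : n = 0
  · simp [hn]
  · simp [hn, hp]

end Fermat.Agent.S16.H131
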