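import Mathlib
import Fermat.Agent.S22T.DeltaInt
import Fermat.Agent.S16.H131.Series

/-!
# S16 / helper131: level-one facts in `q`-expansion form

`IsL1 w a` : `a` is the `q`-expansion of a level-one modular form of weight `w`.
-/

set_option autoImplicit false

namespace Fermat.Agent.S16.H131

open PowerSeries ModularForm ModularFormClass EisensteinSeries UpperHalfPlane MatrixGroups
open Fermat.Agent.S22T

noncomputable section

/-- coefficient embedding `ℤ⟦X⟧ → ℂ⟦X⟧` -/
abbrev ι : PowerSeries ℤ →+* PowerSeries ℂ := PowerSeries.map (Int.castRingHom ℂ)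

theorem ι_injective : Function.Injective ι :=
  PowerSeries.map_injective _ Int.cast_injective

/-- integral `q`-expansion of `E₄` -/
def E4z : PowerSeries ℤ := 1 + 240 * sigmaSeries 3
/-- integral `q`-expansion of `E₆` -/
def E6z : PowerSeries ℤ := 1 - 504 * sigmaSeries 5
/-- integral `q`-expansion of `Δ` -/
def Dz : PowerSeries ℤ := deltaSeries

theorem E4z_cube_sub : E4z ^ 3 - E6z ^ 2 = 1728 * Dz := deltaSeries_identity

theorem constantCoeff_sigmaSeries (k : ℕ) : constantCoeff (sigmaSeries k) = 0 := by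
  rw [← coeff_zero_eq_constantCoeff_apply]
  simp [sigmaSeries]

theorem constantCoeff_E4z : constantCoeff E4z = 1 := by
  simp [E4z, constantCoeff_sigmaSeries]

theorem constantCoeff_E6z : constantCoeff E6z = 1 := by
  simp [E6z, constantCoeff_sigmaSeries]

theorem constantCoeff_Dz : constantCoeff Dz = 0 := by
  rw [← coeff_zero_eq_constantCoeff_apply]
  exact tau_zero

theorem coeff_one_Dz : coeff 1 Dz = 1 := tau_one

/-- `a` is the `q`-expansion of a level one modular form of weight `w`. -/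
def IsL1 (w : ℤ) (a : PowerSeries ℂ) : Prop :=
  ∃ f : ModularForm 𝒮ℒ w, qExpansion 1 f = a

theorem IsL1.congr_weight {w w' : ℤ} {a : PowerSeries ℂ} (h : w = w') (ha : IsL1 w a) :
    IsL1 w' a := h ▸ ha

theorem IsL1.zero (w : ℤ) : IsL1 w 0 := ⟨0, by simpa using qExpansion_zero 1⟩

theorem IsL1.add {w : ℤ} {a b : PowerSeries ℂ} (ha : IsL1 w a) (hb : IsL1 w b) :
    IsL1 w (a + b) := by
  obtain ⟨f, rfl⟩ := ha
  obtain ⟨g, rfl⟩ := hb
  exact ⟨f + g, by
    rw [FunLike.coe_add]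
    exact ModularForm.qExpansion_add one_pos one_mem_strictPeriods_SL f g⟩

theorem IsL1.smul {w : ℤ} {a : PowerSeries ℂ} (c : ℂ) (ha : IsL1 w a) :
    IsL1 w (c • a) := by
  obtain ⟨f, rfl⟩ := ha
  exact ⟨c • f, by
    rw [FunLike.coe_smul]
    exact ModularForm.qExpansion_smul one_pos one_mem_strictPeriods_SL c f⟩

theorem IsL1.neg {w : ℤ} {a : PowerSeries ℂ} (ha : IsL1 w a) : IsL1 w (-a) := by
  have := ha.smul (-1)
  simpa using this

theorem IsL1.sub {w : ℤ} {a b : PowerSeries ℂ} (ha : IsL1 w a) (hb : IsL1 w b) :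
    IsL1 w (a - b) := by
  rw [sub_eq_add_neg]
  exact ha.add hb.neg

theorem IsL1.mul {w w' : ℤ} {a b : PowerSeries ℂ} (ha : IsL1 w a) (hb : IsL1 w' b) :
    IsL1 (w + w') (a * b) := by
  obtain ⟨f, rfl⟩ := ha
  obtain ⟨g, rfl⟩ := hb
  exact ⟨f.mul g, ModularForm.qExpansion_mul one_pos one_mem_strictPeriods_SL f g⟩

theorem IsL1.one : IsL1 0 1 :=
  ⟨1, ModularForm.qExpansion_one⟩

theorem IsL1.pow {w : ℤ} {a : PowerSeries ℂ} (ha : IsL1 w a) (n : ℕ) :
    IsL1 (n * w) (a ^ n) := by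
  induction n with
  | zero => simpa using IsL1.one
  | succ n ih =>
    rw [pow_succ]
    exact (ih.mul ha).congr_weight (by push_cast; ring)

theorem IsL1.const (c : ℂ) : IsL1 0 (C c) := by
  have := IsL1.one.smul c
  rwa [smul_eq_C_mul, mul_one] at this

theorem isL1_E4 : IsL1 4 (ι E4z) := ⟨E₄, by rw [qExpansion_E4]; rfl⟩

theorem isL1_E6 : IsL1 6 (ι E6z) := ⟨E₆, by rw [qExpansion_E6]; rfl⟩

theorem ι_Dz_eq : ι Dz = (1 / 1728 : ℂ) • ((ι E4z) ^ 3 - (ι E6z) ^ 2) := by
  have := congrArg ι E4z_cube_sub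
  rw [map_sub, map_pow, map_pow, map_mul] at this
  have h1728 : ι (1728 : PowerSeries ℤ) = C (1728 : ℂ) := by
    rw [map_ofNat, map_ofNat]
  rw [h1728] at this
  rw [this, smul_eq_C_mul, ← mul_assoc, ← map_mul]
  norm_num

theorem isL1_D : IsL1 12 (ι Dz) := by
  rw [ι_Dz_eq]
  exact (((isL1_E4.pow 3).congr_weight (by norm_num)).sub
    ((isL1_E6.pow 2).congr_weight (by norm_num))).smul _

theorem IsL1.eq_zero_of_neg {w : ℤ} (hw : w < 0) {a : PowerSeries ℂ} (ha : IsL1 w a) : a = 0 := by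
  obtain ⟨f, rfl⟩ := ha
  rw [levelOne_neg_weight_eq_zero hw f]
  exact qExpansion_zero 1

theorem IsL1.eq_zero_of_two {a : PowerSeries ℂ} (ha : IsL1 2 a) : a = 0 := by
  obtain ⟨f, rfl⟩ := ha
  have hf : f = 0 := rank_zero_iff_forall_zero.mp levelOne_weight_two_rank_zero f
  rw [hf]
  simpa using qExpansion_zero 1

/-- a level one `q`-expansion with zero constant term is divisible by `Δ`. -/
theorem IsL1.exists_eq_D_mul {w : ℤ} {a : PowerSeries ℂ} (ha : IsL1 w a)
    (h0 : constantCoeff a = 0) : ∃ a', IsL1 (w - 12) a' ∧ a = ι Dz * a' := by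
  obtain ⟨f, rfl⟩ := ha
  have hc : (qExpansion 1 f).coeff 0 = 0 := by
    rwa [coeff_zero_eq_constantCoeff_apply]
  refine ⟨_, ⟨CuspForm.discriminantEquiv (toCuspForm f hc), rfl⟩, ?_⟩
  rw [qExpansion_eq_qExpansion_discriminant_mul f hc, qExpansion_discriminant]
  rfl

theorem ι_Dz_ne_zero : ι Dz ≠ 0 := by
  intro h
  have := congrArg (coeff 1) h
  rw [coeff_map, coeff_one_Dz] at this
  simp at this

/-- `Dz = X * unit` -/
theorem exists_Dz_eq : ∃ u : (PowerSeries ℤ)ˣ, Dz = X * (u : PowerSeries ℤ) := by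
  have h0 : (X : PowerSeries ℤ) ∣ Dz := X_dvd_iff.mpr constantCoeff_Dz
  obtain ⟨u, hu⟩ := h0
  have hu1 : constantCoeff u = 1 := by
    have := congrArg (coeff 1) hu
    rw [coeff_one_Dz, show (1 : ℕ) = 0 + 1 from rfl, coeff_succ_X_mul,
      coeff_zero_eq_constantCoeff_apply] at this
    exact this.symm
  have hunit : IsUnit u := isUnit_iff_constantCoeff.mpr (by rw [hu1]; exact isUnit_one)
  exact ⟨hunit.unit, by rw [hu]; rfl⟩

/-- division by `Δ` preserves integrality -/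
theorem exists_int_of_D_mul {A : PowerSeries ℤ} {a' : PowerSeries ℂ}
    (h : ι A = ι Dz * a') : ∃ A' : PowerSeries ℤ, a' = ι A' ∧ A = Dz * A' := by
  obtain ⟨u, hu⟩ := exists_Dz_eq
  have hA0 : constantCoeff A = 0 := by
    have := congrArg constantCoeff h
    rw [map_mul] at this
    have h1 : constantCoeff (ι Dz) = 0 := by
      rw [← coeff_zero_eq_constantCoeff_apply, coeff_map, coeff_zero_eq_constantCoeff_apply,
        constantCoeff_Dz]
      simp
    rw [h1, zero_mul, ← coeff_zero_eq_constantCoeff_apply, coeff_map,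
      coeff_zero_eq_constantCoeff_apply] at this
    simpa using this
  obtain ⟨A₁, hA₁⟩ := X_dvd_iff.mpr hA0
  refine ⟨((u⁻¹ : (PowerSeries ℤ)ˣ) : PowerSeries ℤ) * A₁, ?_, ?_⟩
  · have hX : (X : PowerSeries ℂ) ≠ 0 := X_ne_zero
    have h2 : (X : PowerSeries ℂ) * (ι (u : PowerSeries ℤ) * a') = X * ι A₁ := by
      have := h
      rw [hA₁, hu, map_mul, map_mul, map_X, mul_assoc] at this
      exact this.symm
    have h3 := mul_left_cancel₀ hX h2
    have h4 : ι ((u⁻¹ : (PowerSeries ℤ)ˣ) : PowerSeries ℤ) * ι (u : PowerSeries ℤ) = 1 := by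
      rw [← map_mul]
      simp
    calc a' = (ι ((u⁻¹ : (PowerSeries ℤ)ˣ) : PowerSeries ℤ) * ι (u : PowerSeries ℤ)) * a' := by
          rw [h4, one_mul]
      _ = ι ((u⁻¹ : (PowerSeries ℤ)ˣ) : PowerSeries ℤ) * ι A₁ := by rw [mul_assoc, h3]
      _ = ι (((u⁻¹ : (PowerSeries ℤ)ˣ) : PowerSeries ℤ) * A₁) := by rw [map_mul]
  · rw [hA₁, hu]
    have : (u : PowerSeries ℤ) * ((u⁻¹ : (PowerSeries ℤ)ˣ) : PowerSeries ℤ) = 1 := by simp
    calc X * A₁ = X * (((u : PowerSeries ℤ) * ((u⁻¹ : (PowerSeries ℤ)ˣ) : PowerSeries ℤ)) * A₁) := by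
          rw [this, one_mul]
      _ = _ := by ring

/-- **Δ-adic expansion, top coefficient.**  An integral level one form of weight `12 j` is
`c Δ^j + E₄ h` with `c ∈ ℤ`. -/
theorem exists_top_coeff : ∀ (j : ℕ) (A : PowerSeries ℤ), IsL1 (12 * (j : ℤ)) (ι A) →
    ∃ (c : ℤ) (h : PowerSeries ℂ), IsL1 (12 * (j : ℤ) - 4) h ∧
      ι A = (c : ℂ) • (ι Dz) ^ j + ι E4z * h := by
  intro j
  induction j with
  | zero =>
    intro A hA
    refine ⟨constantCoeff A, 0, IsL1.zero _, ?_⟩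
    have h1 : IsL1 0 (ι A - C ((constantCoeff A : ℤ) : ℂ)) :=
      (hA.congr_weight (by simp)).sub (IsL1.const _)
    have h2 : constantCoeff (ι A - C ((constantCoeff A : ℤ) : ℂ)) = 0 := by
      rw [map_sub, ← coeff_zero_eq_constantCoeff_apply, coeff_map,
        coeff_zero_eq_constantCoeff_apply]
      simp
    obtain ⟨a', ha', hEq⟩ := h1.exists_eq_D_mul h2
    have ha0 : a' = 0 := ha'.eq_zero_of_neg (by norm_num)
    rw [ha0, mul_zero, sub_eq_zero] at hEq
    rw [hEq, pow_zero, mul_zero, add_zero, smul_eq_C_mul, mul_one]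
  | succ j ih =>
    intro A hA
    set a₀ : ℤ := constantCoeff A with ha₀
    set B : PowerSeries ℤ := A - C a₀ * E4z ^ (3 * (j + 1)) with hB
    have hE : IsL1 (12 * ((j + 1 : ℕ) : ℤ)) (ι (C a₀ * E4z ^ (3 * (j + 1)))) := by
      rw [map_mul, map_pow]
      have h1 := (isL1_E4.pow (3 * (j + 1))).smul (a₀ : ℂ)
      rw [smul_eq_C_mul] at h1
      have h2 : ι (C a₀) = C (a₀ : ℂ) := by simp
      rw [h2]
      exact h1.congr_weight (by push_cast; ring)
    have hBL : IsL1 (12 * ((j + 1 : ℕ) : ℤ)) (ι B) := by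
      rw [hB, map_sub]
      exact hA.sub hE
    have hB0 : constantCoeff (ι B) = 0 := by
      rw [← coeff_zero_eq_constantCoeff_apply, coeff_map, coeff_zero_eq_constantCoeff_apply, hB,
        map_sub, map_mul, map_pow, constantCoeff_E4z]
      simp [ha₀]
    obtain ⟨a', ha', hEq⟩ := hBL.exists_eq_D_mul hB0
    obtain ⟨A', rfl, -⟩ := exists_int_of_D_mul hEq
    obtain ⟨c, h', hh', hA'⟩ := ih A' (ha'.congr_weight (by push_cast; ring))
    refine ⟨c, ι Dz * h' + (a₀ : ℂ) • (ι E4z) ^ (3 * j + 2), ?_, ?_⟩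
    · refine IsL1.add ?_ ?_
      · exact (isL1_D.mul hh').congr_weight (by push_cast; ring)
      · exact ((isL1_E4.pow (3 * j + 2)).smul _).congr_weight (by push_cast; ring)
    · have hAB : ι A = ι B + ι (C a₀ * E4z ^ (3 * (j + 1))) := by
        rw [hB, ← map_add]; congr 1; ring
      have h2 : ι (C a₀) = C (a₀ : ℂ) := by simp
      rw [hAB, hEq, hA', map_mul, map_pow, h2]
      simp only [smul_eq_C_mul]
      ring

/-- **independence of `Δ^j` modulo `E₄`.** -/
theorem eq_zero_of_smul_D_pow_eq : ∀ (j : ℕ) (c : ℂ) (h : PowerSeries ℂ),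
    IsL1 (12 * (j : ℤ) - 4) h → c • (ι Dz) ^ j = ι E4z * h → c = 0 := by
  intro j
  induction j with
  | zero =>
    intro c h hh hEq
    have h0 : h = 0 := hh.eq_zero_of_neg (by norm_num)
    rw [h0, mul_zero, pow_zero, smul_eq_C_mul, mul_one] at hEq
    have := congrArg constantCoeff hEq
    simpa using this
  | succ j ih =>
    intro c h hh hEq
    have hD0 : constantCoeff (ι Dz) = 0 := by
      rw [← coeff_zero_eq_constantCoeff_apply, coeff_map, coeff_zero_eq_constantCoeff_apply,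
        constantCoeff_Dz]
      simp
    have hE1 : constantCoeff (ι E4z) = 1 := by
      rw [← coeff_zero_eq_constantCoeff_apply, coeff_map, coeff_zero_eq_constantCoeff_apply,
        constantCoeff_E4z]
      simp
    have hh0 : constantCoeff h = 0 := by
      have := congrArg constantCoeff hEq
      rw [smul_eq_C_mul, map_mul, map_mul, map_pow, hD0, hE1, one_mul, zero_pow (by omega),
        mul_zero] at this
      exact this.symm
    obtain ⟨h', hh', rfl⟩ := hh.exists_eq_D_mul hh0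
    refine ih c h' (hh'.congr_weight (by push_cast; ring)) ?_
    apply mul_left_cancel₀ ι_Dz_ne_zero
    rw [pow_succ] at hEq
    calc ι Dz * c • ι Dz ^ j = c • (ι Dz ^ j * ι Dz) := by
          rw [smul_eq_C_mul, smul_eq_C_mul]; ring
      _ = ι E4z * (ι Dz * h') := hEq
      _ = ι Dz * (ι E4z * h') := by ring

/-- `E₆^(2m) = (-1728)^m Δ^m + E₄ h`. -/
theorem exists_E6_pow_eq : ∀ m : ℕ, ∃ h : PowerSeries ℂ, IsL1 (12 * (m : ℤ) - 4) h ∧
    (ι E6z) ^ (2 * m) = ((-1728 : ℂ) ^ m) • (ι Dz) ^ m + ι E4z * h := by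
  have hrel : (ι E6z) ^ 2 = (ι E4z) ^ 3 - (1728 : ℂ) • ι Dz := by
    have := congrArg ι E4z_cube_sub
    rw [map_sub, map_pow, map_pow, map_mul] at this
    have h1728 : ι (1728 : PowerSeries ℤ) = C (1728 : ℂ) := by
      rw [map_ofNat, map_ofNat]
    rw [h1728] at this
    rw [smul_eq_C_mul, ← this]
    ring
  intro m
  induction m with
  | zero =>
    exact ⟨0, IsL1.zero _, by simp⟩
  | succ m ih =>
    obtain ⟨h, hh, hEq⟩ := ih
    refine ⟨((-1728 : ℂ) ^ m) • ((ι Dz) ^ m * (ι E4z) ^ 2) +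
      h * ((ι E4z) ^ 3 - (1728 : ℂ) • ι Dz), ?_, ?_⟩
    · refine IsL1.add ?_ ?_
      · exact (((isL1_D.pow m).mul (isL1_E4.pow 2)).smul _).congr_weight (by push_cast; ring)
      · refine (hh.mul ((isL1_E4.pow 3).sub ?_)).congr_weight (by push_cast; ring)
        exact (isL1_D.smul _).congr_weight (by norm_num)
    · rw [show 2 * (m + 1) = 2 * m + 2 by ring, pow_add, hEq, hrel]
      simp only [smul_eq_C_mul, map_pow, map_neg]
      ring

end

end Fermat.Agent.S16.H131
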