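import Mathlib
import Fermat.Agent.S16.H131.Level1

/-!
# S16 / helper131: abstract Fricke systems

A `FrickeSys p` axiomatises the pairs `(q-expansion of F, q-expansion of F^)` where `F` runs over
modular forms on `Γ₀(p)` and `F^(z) = z^{-w} F(-1/(p z))` is the Fricke image.  All of the upper
bound (UB) of S16 is derived from these axioms plus level-one facts.
-/

set_option autoImplicit false

namespace Fermat.Agent.S16.H131

open PowerSeries

noncomputable section

/-- The ring of pairs of power series. -/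
abbrev PP : Type := PowerSeries ℂ × PowerSeries ℂ

/-- Abstract Fricke system of level `p`. `Form w (a, b)`: `a = q(F)`, `b = q(F^)` for some
`F ∈ M_w(Γ₀(p))`. -/
structure FrickeSys (p : ℕ) (hp : p ≠ 0) where
  /-- the predicate -/
  Form : ℤ → PP → Prop
  add : ∀ {w : ℤ} {x y : PP}, Form w x → Form w y → Form w (x + y)
  smul : ∀ {w : ℤ} {x : PP} (c : ℂ), Form w x → Form w (c • x)
  mul : ∀ {w w' : ℤ} {x y : PP}, Form w x → Form w' y → Form (w + w') (x * y)
  ofL1 : ∀ {w : ℤ} {a : PowerSeries ℂ}, IsL1 w a → Form w (a, (p : ℂ) ^ w • expand p hp a)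
  symm : ∀ {w : ℤ} {x : PP}, Even w → Form w x → Form w (x.2, (p : ℂ) ^ w • x.1)
  trace : ∀ {w : ℤ} {x : PP}, Form w x → IsL1 w (x.1 + (p : ℂ) ^ (1 - w) • Uop p x.2)

namespace FrickeSys

variable {p : ℕ} {hp : p ≠ 0} (S : FrickeSys p hp)

theorem congr_weight {w w' : ℤ} {x : PP} (h : w = w') (hx : S.Form w x) : S.Form w' x := h ▸ hx

theorem zero (w : ℤ) : S.Form w 0 := by
  have := S.ofL1 (IsL1.zero w)
  have h0 : ((0 : PowerSeries ℂ), (p : ℂ) ^ w • expand p hp (0 : PowerSeries ℂ)) = (0 : PP) := by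
    simp
  rwa [h0] at this

theorem one : S.Form 0 1 := by
  have := S.ofL1 IsL1.one
  have h1 : ((1 : PowerSeries ℂ), (p : ℂ) ^ (0 : ℤ) • expand p hp (1 : PowerSeries ℂ)) = (1 : PP) := by
    simp
  rwa [h1] at this

theorem neg {w : ℤ} {x : PP} (hx : S.Form w x) : S.Form w (-x) := by
  have := S.smul (-1) hx
  simpa using this

theorem sub {w : ℤ} {x y : PP} (hx : S.Form w x) (hy : S.Form w y) : S.Form w (x - y) := by
  rw [sub_eq_add_neg]
  exact S.add hx (S.neg hy)

theorem pow {w : ℤ} {x : PP} (hx : S.Form w x) (n : ℕ) : S.Form (n * w) (x ^ n) := by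
  induction n with
  | zero => simpa using S.one
  | succ n ih =>
    rw [pow_succ]
    exact S.congr_weight (by push_cast; ring) (S.mul ih hx)

/-- the integrally normalised trace: `p^(w-1) a + U_p b` -/
def tr (p : ℕ) (w : ℤ) (x : PP) : PowerSeries ℂ := (p : ℂ) ^ (w - 1) • x.1 + Uop p x.2

theorem tr_add (w : ℤ) (x y : PP) : tr p w (x + y) = tr p w x + tr p w y := by
  simp only [tr, Prod.fst_add, Prod.snd_add, smul_add, map_add]
  ring

theorem tr_smul (w : ℤ) (c : ℂ) (x : PP) : tr p w (c • x) = c • tr p w x := by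
  simp only [tr, Prod.smul_fst, Prod.smul_snd, smul_add, map_smul]
  rw [smul_comm]

theorem tr_sub (w : ℤ) (x y : PP) : tr p w (x - y) = tr p w x - tr p w y := by
  have h := tr_add (p := p) w (x - y) y
  rw [sub_add_cancel] at h
  rw [h, add_sub_cancel_right]

include hp in
theorem p_ne_zero : (p : ℂ) ≠ 0 := Nat.cast_ne_zero.mpr hp

theorem isL1_tr {w : ℤ} {x : PP} (hx : S.Form w x) : IsL1 w (tr p w x) := by
  have h := (S.trace hx).smul ((p : ℂ) ^ (w - 1))
  have hp0 : (p : ℂ) ≠ 0 := Nat.cast_ne_zero.mpr hp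
  have : (p : ℂ) ^ (w - 1) • (x.1 + (p : ℂ) ^ (1 - w) • Uop p x.2) = tr p w x := by
    rw [tr, smul_add, smul_smul, ← zpow_add₀ hp0]
    simp
  rwa [this] at h

/-- weight 2: the Fricke image is `-p U_p`. -/
theorem fricke_two {x : PP} (hx : S.Form 2 x) : x.2 = -((p : ℂ) • Uop p x.1) := by
  have h := S.trace (S.symm (by decide) hx)
  have h0 := h.eq_zero_of_two
  have hp0 : (p : ℂ) ≠ 0 := Nat.cast_ne_zero.mpr hp
  simp only [map_smul, smul_smul] at h0
  have : (p : ℂ) ^ (1 - 2 : ℤ) * (p : ℂ) ^ (2 : ℤ) = p := by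
    rw [← zpow_add₀ hp0]
    norm_num
  rw [this] at h0
  exact eq_neg_of_add_eq_zero_left h0

end FrickeSys

end

end Fermat.Agent.S16.H131
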