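import Mathlib
import Fermat.Agent.S16.H131.FrickeSys

/-!
# S16 / helper131: U4, integer power series part

Explicit integral power series `μa, μb, Ka, Kb` and the congruences `A μa ≡ Ka`, `B μb ≡ Kb mod 2`.
-/

set_option autoImplicit false

namespace Fermat.Agent.S16.H131

open PowerSeries
open Fermat.Agent.S22T
open scoped ArithmeticFunction.sigma

noncomputable section

theorem two_dvd_pow_five_sub (d : ℤ) : (2 : ℤ) ∣ d ^ 5 - d ^ 3 := by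
  have h : d ^ 5 - d ^ 3 = (d * (d - 1)) * (d ^ 2 * (d + 1)) := by ring
  rw [h]
  exact Dvd.dvd.mul_right (even_iff_two_dvd.mp (Int.even_mul_pred_self d)) _

open ArithmeticFunction in
theorem two_dvd_sigma_five_sub (n : ℕ) : (2 : ℤ) ∣ (σ 5 n : ℤ) - (σ 3 n : ℤ) := by
  rw [sigma_apply, sigma_apply]
  push_cast
  rw [← Finset.sum_sub_distrib]
  exact Finset.dvd_sum fun d _ => two_dvd_pow_five_sub d

/-- `σ₅ ≡ σ₃ mod 2` as power series -/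
theorem exists_sigma_five_eq : ∃ t : PowerSeries ℤ, sigmaSeries 5 = sigmaSeries 3 + 2 * t := by
  refine ⟨PowerSeries.mk fun n => (coeff n (sigmaSeries 5) - coeff n (sigmaSeries 3)) / 2, ?_⟩
  ext n
  have h2 : (2 : PowerSeries ℤ) = C (2 : ℤ) := by rw [map_ofNat]
  rw [map_add, h2, coeff_C_mul, coeff_mk]
  have hd : (2 : ℤ) ∣ coeff n (sigmaSeries 5) - coeff n (sigmaSeries 3) := by
    simp only [sigmaSeries, coeff_mk]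
    split_ifs with hn
    · simp
    · exact two_dvd_sigma_five_sub n
  rw [Int.mul_ediv_cancel' hd]
  ring


/-! ### pure algebra in a commutative ring -/

section Alg

variable {R : Type*} [CommRing R] (Sp x s3 t Ee Y V3 Vt : R)

/-- `(G² - s² E₄)/16` at `∞` -/
def muA : R := (2 * Sp + 1) * x + 4 * x ^ 2 - 15 * (2 * Sp + 1) ^ 2 * s3
/-- `(G^² - s² E₄^)/16` (Fricke side) -/
def muB : R := (8 * Ee - 1) ^ 2 * ((2 * Sp + 1) ^ 2 * Ee * (1 - 4 * Ee) + (2 * Sp + 1) * Y + 4 * Y ^ 2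
  - 15 * (2 * Sp + 1) ^ 2 * (8 * Ee - 1) ^ 2 * V3)
/-- `(G E₄ - s E₆)/8` at `∞` -/
def kA : R := x * (1 + 240 * s3) + (2 * Sp + 1) * (30 * s3 + 63 * (s3 + 2 * t))
/-- `(G^ E₄^ - s E₆^)/8` (Fricke side) -/
def kB : R := -(8 * Ee - 1) ^ 5 * ((2 * Sp + 1) * Ee + Y * (1 + 240 * V3) + 30 * (2 * Sp + 1) * V3
  - 63 * (2 * Sp + 1) * (8 * Ee - 1) * (V3 + 2 * Vt))
/-- `G` at `∞` -/
def gA : R := (2 * Sp + 1) + 8 * x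
/-- `G^` -/
def gB : R := -(8 * Ee - 1) * ((2 * Sp + 1) + 8 * Y)

theorem sixteen_muA : 16 * muA Sp x s3 = gA Sp x ^ 2 - (2 * Sp + 1) ^ 2 * (1 + 240 * s3) := by
  simp only [muA, gA]; ring

theorem sixteen_muB : 16 * muB Sp Ee Y V3 =
    gB Sp Ee Y ^ 2 - (2 * Sp + 1) ^ 2 * ((8 * Ee - 1) ^ 4 * (1 + 240 * V3)) := by
  simp only [muB, gB]; ring

theorem eight_kA : 8 * kA Sp x s3 t =
    gA Sp x * (1 + 240 * s3) - (2 * Sp + 1) * (1 - 504 * (s3 + 2 * t)) := by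
  simp only [kA, gA]; ring

theorem eight_kB : 8 * kB Sp Ee Y V3 Vt =
    gB Sp Ee Y * ((8 * Ee - 1) ^ 4 * (1 + 240 * V3)) -
      (2 * Sp + 1) * ((8 * Ee - 1) ^ 6 * (1 - 504 * (V3 + 2 * Vt))) := by
  simp only [kB, gB]; ring

theorem two_dvd_A : (2 : R) ∣ gA Sp x * muA Sp x s3 - kA Sp x s3 t := by
  refine ⟨(-138) * Sp * s3 + (-240) * Sp * s3 * x + (-126) * Sp * t + (2) * Sp * x + (12) * Sp * x ^ 2 +
      (-90) * Sp ^ 2 * s3 + (-240) * Sp ^ 2 * s3 * x + (2) * Sp ^ 2 * x + (-60) * Sp ^ 3 * s3 +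
      (-54) * s3 + (-180) * s3 * x + (-63) * t + (6) * x ^ 2 + (16) * x ^ 3, ?_⟩
  simp only [muA, kA, gA]; ring

theorem two_dvd_B : (2 : R) ∣ gB Sp Ee Y * muB Sp Ee Y V3 - kB Sp Ee Y V3 Vt := by
  refine ⟨(2) * Ee * Sp + (6024) * Ee * Sp * V3 + (9600) * Ee * Sp * V3 * Y + (6048) * Ee * Sp * Vt +
      (-32) * Ee * Sp * Y + (-288) * Ee * Sp * Y ^ 2 + (6) * Ee * Sp ^ 2 + (3600) * Ee * Sp ^ 2 * V3 +
      (9600) * Ee * Sp ^ 2 * V3 * Y + (-32) * Ee * Sp ^ 2 * Y + (4) * Ee * Sp ^ 3 +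
      (2400) * Ee * Sp ^ 3 * V3 + (2412) * Ee * V3 + (7200) * Ee * V3 * Y + (3024) * Ee * Vt +
      (12) * Ee * Y + (-144) * Ee * Y ^ 2 + (-384) * Ee * Y ^ 3 + (6) * Ee ^ 2 + (-44) * Ee ^ 2 * Sp +
      (-108480) * Ee ^ 2 * Sp * V3 + (-153600) * Ee ^ 2 * Sp * V3 * Y + (-120960) * Ee ^ 2 * Sp * Vt +
      (-64) * Ee ^ 2 * Sp * Y + (2304) * Ee ^ 2 * Sp * Y ^ 2 + (-168) * Ee ^ 2 * Sp ^ 2 +
      (-57600) * Ee ^ 2 * Sp ^ 2 * V3 + (-153600) * Ee ^ 2 * Sp ^ 2 * V3 * Y +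
      (-64) * Ee ^ 2 * Sp ^ 2 * Y + (-112) * Ee ^ 2 * Sp ^ 3 + (-38400) * Ee ^ 2 * Sp ^ 3 * V3 +
      (-44640) * Ee ^ 2 * V3 + (-115200) * Ee ^ 2 * V3 * Y + (-60480) * Ee ^ 2 * Vt +
      (-336) * Ee ^ 2 * Y + (1152) * Ee ^ 2 * Y ^ 2 + (3072) * Ee ^ 2 * Y ^ 3 + (-176) * Ee ^ 3 +
      (224) * Ee ^ 3 * Sp + (1029120) * Ee ^ 3 * Sp * V3 + (1228800) * Ee ^ 3 * Sp * V3 * Y +
      (1290240) * Ee ^ 3 * Sp * Vt + (3584) * Ee ^ 3 * Sp * Y + (-6144) * Ee ^ 3 * Sp * Y ^ 2 +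
      (1728) * Ee ^ 3 * Sp ^ 2 + (460800) * Ee ^ 3 * Sp ^ 2 * V3 +
      (1228800) * Ee ^ 3 * Sp ^ 2 * V3 * Y + (3584) * Ee ^ 3 * Sp ^ 2 * Y + (1152) * Ee ^ 3 * Sp ^ 3 +
      (307200) * Ee ^ 3 * Sp ^ 3 * V3 + (437760) * Ee ^ 3 * V3 + (921600) * Ee ^ 3 * V3 * Y +
      (645120) * Ee ^ 3 * Vt + (3456) * Ee ^ 3 * Y + (-3072) * Ee ^ 3 * Y ^ 2 +
      (-8192) * Ee ^ 3 * Y ^ 3 + (1920) * Ee ^ 4 + (1280) * Ee ^ 4 * Sp +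
      (-5406720) * Ee ^ 4 * Sp * V3 + (-4915200) * Ee ^ 4 * Sp * V3 * Y +
      (-7741440) * Ee ^ 4 * Sp * Vt + (-20480) * Ee ^ 4 * Sp * Y + (-7680) * Ee ^ 4 * Sp ^ 2 +
      (-1843200) * Ee ^ 4 * Sp ^ 2 * V3 + (-4915200) * Ee ^ 4 * Sp ^ 2 * V3 * Y +
      (-20480) * Ee ^ 4 * Sp ^ 2 * Y + (-5120) * Ee ^ 4 * Sp ^ 3 + (-1228800) * Ee ^ 4 * Sp ^ 3 * V3 +
      (-2396160) * Ee ^ 4 * V3 + (-3686400) * Ee ^ 4 * V3 * Y + (-3870720) * Ee ^ 4 * Vt +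
      (-15360) * Ee ^ 4 * Y + (-9216) * Ee ^ 5 + (-14336) * Ee ^ 5 * Sp +
      (14843904) * Ee ^ 5 * Sp * V3 + (7864320) * Ee ^ 5 * Sp * V3 * Y +
      (24772608) * Ee ^ 5 * Sp * Vt + (32768) * Ee ^ 5 * Sp * Y + (12288) * Ee ^ 5 * Sp ^ 2 +
      (2949120) * Ee ^ 5 * Sp ^ 2 * V3 + (7864320) * Ee ^ 5 * Sp ^ 2 * V3 * Y +
      (32768) * Ee ^ 5 * Sp ^ 2 * Y + (8192) * Ee ^ 5 * Sp ^ 3 + (1966080) * Ee ^ 5 * Sp ^ 3 * V3 +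
      (6930432) * Ee ^ 5 * V3 + (5898240) * Ee ^ 5 * V3 * Y + (12386304) * Ee ^ 5 * Vt +
      (24576) * Ee ^ 5 * Y + (16384) * Ee ^ 6 + (32768) * Ee ^ 6 * Sp +
      (-16515072) * Ee ^ 6 * Sp * V3 + (-33030144) * Ee ^ 6 * Sp * Vt + (-8257536) * Ee ^ 6 * V3 +
      (-16515072) * Ee ^ 6 * Vt + (-138) * Sp * V3 + (-240) * Sp * V3 * Y + (-126) * Sp * Vt +
      (2) * Sp * Y + (12) * Sp * Y ^ 2 + (-90) * Sp ^ 2 * V3 + (-240) * Sp ^ 2 * V3 * Y +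
      (2) * Sp ^ 2 * Y + (-60) * Sp ^ 3 * V3 + (-54) * V3 + (-180) * V3 * Y + (-63) * Vt +
      (6) * Y ^ 2 + (16) * Y ^ 3, ?_⟩
  simp only [muB, kB, gB]; ring

end Alg

end

end Fermat.Agent.S16.H131
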