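import Mathlib
import Fermat.Agent.S16.H131.U4a

/-!
# S16 / helper131: U4, formal part in the ring of pairs
-/

set_option autoImplicit false

namespace Fermat.Agent.S16.H131

open PowerSeries
open Fermat.Agent.S22T

noncomputable section

namespace FrickeSys

variable {p : ℕ} {hp : p ≠ 0} (S : FrickeSys p hp)

/-- the pair of a level-one `q`-expansion -/
def lvl (p : ℕ) (hp : p ≠ 0) (w : ℤ) (a : PowerSeries ℂ) : PP := (a, (p : ℂ) ^ w • expand p hp a)

theorem form_lvl {w : ℤ} {a : PowerSeries ℂ} (ha : IsL1 w a) : S.Form w (lvl p hp w a) :=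
  S.ofL1 ha

theorem tr_lvl_mul (w w' : ℤ) (a : PowerSeries ℂ) (x : PP) :
    tr p w (lvl p hp w' a * x) = (p : ℂ) ^ w' • (a * tr p (w - w') x) := by
  have hp0 : (p : ℂ) ≠ 0 := Nat.cast_ne_zero.mpr hp
  simp only [tr, lvl, Prod.fst_mul, Prod.snd_mul]
  rw [smul_mul_assoc, map_smul, Uop_expand_mul, mul_add, smul_add, mul_smul_comm, smul_smul,
    ← zpow_add₀ hp0]
  congr 2
  ring_nf

theorem lvl_pow (w : ℤ) (a : PowerSeries ℂ) (n : ℕ) :
    lvl p hp w a ^ n = lvl p hp (n * w) (a ^ n) := by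
  simp only [lvl, Prod.pow_mk, smul_pow, map_pow]
  congr 2
  rw [← zpow_natCast, ← zpow_mul, mul_comm]

theorem tr_lvl (w : ℤ) (a : PowerSeries ℂ) :
    tr p w (lvl p hp w a) = ((p : ℂ) ^ (w - 1) * (1 + p)) • a := by
  have hp0 : (p : ℂ) ≠ 0 := Nat.cast_ne_zero.mpr hp
  simp only [tr, lvl, map_smul, Uop_expand]
  rw [← add_smul]
  congr 1
  rw [mul_add, mul_one, ← zpow_add_one₀ hp0]
  ring_nf

/-- binomial expansion modulo a level-one element, first kind. -/
theorem exists_pow_eq_I1 {μ e : PP} (hμ : S.Form 4 μ) (he : S.Form 4 e) (c : ℂ) :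
    ∀ m : ℕ, ∃ Q : PP, S.Form (4 * (m : ℤ) - 4) Q ∧
      ((16 : ℂ) • μ + c • e) ^ m = (16 : ℂ) ^ m • μ ^ m + e * Q := by
  intro m
  induction m with
  | zero => exact ⟨0, S.zero _, by simp⟩
  | succ m ih =>
    obtain ⟨Q, hQ, hEq⟩ := ih
    refine ⟨c • ((16 : ℂ) ^ m • μ ^ m) + Q * ((16 : ℂ) • μ + c • e), ?_, ?_⟩
    · refine S.add ?_ ?_
      · exact S.congr_weight (by push_cast; ring) (S.smul _ (S.smul _ (S.pow hμ m)))
      · exact S.congr_weight (by push_cast; ring)
          (S.mul hQ (S.add (S.smul _ hμ) (S.smul _ he)))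
    · rw [pow_succ, hEq]
      simp only [Algebra.smul_def, map_pow]
      ring

/-- binomial expansion modulo a level-one element, second kind. -/
theorem exists_pow_eq_I2 {G e f : PP} (hG : S.Form 2 G) (he : S.Form 4 e) (hf : S.Form 6 f)
    (c : ℂ) :
    ∀ n : ℕ, ∃ Q : PP, S.Form (6 * (n : ℤ) - 4) Q ∧
      (G * e - c • f) ^ n = (-c) ^ n • f ^ n + e * Q := by
  intro n
  induction n with
  | zero => exact ⟨0, S.zero _, by simp⟩
  | succ n ih =>
    obtain ⟨Q, hQ, hEq⟩ := ih
    refine ⟨((-c) ^ n • f ^ n) * G + Q * (G * e - c • f), ?_, ?_⟩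
    · refine S.add ?_ ?_
      · exact S.congr_weight (by push_cast; ring) (S.mul (S.smul _ (S.pow hf n)) hG)
      · exact S.congr_weight (by push_cast; ring)
          (S.mul hQ (S.sub (S.mul hG he) (S.smul _ hf)))
    · rw [pow_succ, hEq]
      simp only [Algebra.smul_def, map_pow, map_neg]
      ring

theorem form_algebraMap (c : ℂ) : S.Form 0 (algebraMap ℂ PP c) := by
  have := S.smul c S.one
  rwa [Algebra.smul_def, mul_one] at this

theorem form_natCast (n : ℕ) : S.Form 0 (n : PP) := by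
  have := S.form_algebraMap (n : ℂ)
  rwa [map_natCast] at this

theorem form_intCast (n : ℤ) : S.Form 0 (n : PP) := by
  have := S.form_algebraMap (n : ℂ)
  rwa [map_intCast] at this

theorem form_ofNat (n : ℕ) [n.AtLeastTwo] : S.Form 0 (OfNat.ofNat n : PP) := by
  have := S.form_natCast n
  rw [← Nat.cast_ofNat (R := PP)]
  exact this

/-- binomial expansion modulo a level-one element, first kind (ring form). -/
theorem exists_pow_eq_J1 {μ e a c : PP} (hμ : S.Form 4 μ) (he : S.Form 4 e)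
    (ha : S.Form 0 a) (hc : S.Form 0 c) :
    ∀ m : ℕ, ∃ Q : PP, S.Form (4 * (m : ℤ) - 4) Q ∧
      (a * μ + c * e) ^ m = a ^ m * μ ^ m + e * Q := by
  intro m
  induction m with
  | zero => exact ⟨0, S.zero _, by simp⟩
  | succ m ih =>
    obtain ⟨Q, hQ, hEq⟩ := ih
    refine ⟨c * (a ^ m * μ ^ m) + Q * (a * μ + c * e), ?_, ?_⟩
    · refine S.add ?_ ?_
      · exact S.congr_weight (by push_cast; ring) (S.mul hc (S.mul (S.pow ha m) (S.pow hμ m)))
      · exact S.congr_weight (by push_cast; ring)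
          (S.mul hQ (S.add (S.mul ha hμ) (S.mul hc he)))
    · rw [pow_succ, hEq]
      ring

/-- binomial expansion modulo a level-one element, second kind (ring form). -/
theorem exists_pow_eq_J2 {G e f c : PP} (hG : S.Form 2 G) (he : S.Form 4 e) (hf : S.Form 6 f)
    (hc : S.Form 0 c) :
    ∀ n : ℕ, ∃ Q : PP, S.Form (6 * (n : ℤ) - 4) Q ∧
      (G * e - c * f) ^ n = (-c) ^ n * f ^ n + e * Q := by
  intro n
  induction n with
  | zero => exact ⟨0, S.zero _, by simp⟩
  | succ n ih =>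
    obtain ⟨Q, hQ, hEq⟩ := ih
    refine ⟨((-c) ^ n * f ^ n) * G + Q * (G * e - c * f), ?_, ?_⟩
    · refine S.add ?_ ?_
      · exact S.congr_weight (by push_cast; ring)
          (S.mul (S.mul (S.pow (S.neg hc) n) (S.pow hf n)) hG)
      · exact S.congr_weight (by push_cast; ring)
          (S.mul hQ (S.sub (S.congr_weight (show (2 : ℤ) + 4 = 6 by norm_num) (S.mul hG he))
            (S.congr_weight (show (0 : ℤ) + 6 = 6 by norm_num) (S.mul hc hf))))
    · rw [pow_succ, hEq]
      ring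

end FrickeSys

end

end Fermat.Agent.S16.H131
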