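import Mathlib
import Fermat.Agent.S16.H131.U4b

/-!
# S16 / helper131: U4 (the case `p ≡ 7 mod 8`)

If `8 ∣ p + 1` there is no weight-2 form on `Γ₀(p)` whose `q`-expansion is `s + 8 x` with `s` odd
and `x` integral.  Stated for an abstract `FrickeSys`.
-/

set_option autoImplicit false

namespace Fermat.Agent.S16.H131

open PowerSeries
open Fermat.Agent.S22T

noncomputable section

namespace FrickeSys

variable {p : ℕ} {hp : p ≠ 0} (S : FrickeSys p hp)

theorem ι_smul_natCast_pow (k : ℕ) (z : PowerSeries ℤ) :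
    ι ((p : PowerSeries ℤ) ^ k * z) = (p : ℂ) ^ k • ι z := by
  rw [map_mul, map_pow, map_natCast, smul_eq_C_mul, map_pow, map_natCast]

theorem ι_intCast_mul (c : ℤ) (z : PowerSeries ℤ) :
    ι (C c * z) = (c : ℂ) • ι z := by
  rw [map_mul, smul_eq_C_mul]
  congr 1
  simp

theorem ι_Uop (z : PowerSeries ℤ) : ι (Uop p z) = Uop p (ι z) := map_Uop _ _ _

theorem ι_expand (z : PowerSeries ℤ) : ι (expand p hp z) = expand p hp (ι z) :=
  map_expand p hp _ z

/-- pure algebra: the expansion identity. -/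
theorem final_algebra {A : Type*} [CommRing A] (G μ K E4 E6 Q Q₂ s : A) (m : ℕ)
    (h1 : G * G = 16 * μ + s ^ 2 * E4) (h2 : 8 * K = G * E4 - s * E6)
    (h3 : (16 * μ + s ^ 2 * E4) ^ m = 16 ^ m * μ ^ m + E4 * Q)
    (h4 : (G * E4 - s * E6) ^ (2 * m) = (-s) ^ (2 * m) * E6 ^ (2 * m) + E4 * Q₂) :
    8 ^ (2 * m) * ((G * μ) ^ (2 * m) - K ^ (2 * m)) =
      8 ^ (2 * m) * 16 ^ m * μ ^ (3 * m) - s ^ (2 * m) * E6 ^ (2 * m) +
        E4 * (8 ^ (2 * m) * Q * μ ^ (2 * m) - Q₂) := by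
  have e1 : (G * μ) ^ (2 * m) = (16 ^ m * μ ^ m + E4 * Q) * μ ^ (2 * m) := by
    rw [← h3, ← h1, mul_pow, pow_mul, ← pow_two]
  have e2 : 8 ^ (2 * m) * K ^ (2 * m) = s ^ (2 * m) * E6 ^ (2 * m) + E4 * Q₂ := by
    rw [← mul_pow, h2, h4, Even.neg_pow ⟨m, by ring⟩]
  rw [mul_sub, e2, e1]
  ring

section Inst

variable (p : ℕ) (hp : p ≠ 0) (e s' : ℤ) (x t : PowerSeries ℤ)

/-- integer pairs -/
abbrev ZZ : Type := PowerSeries ℤ × PowerSeries ℤ

/-- the coefficient embedding on pairs -/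
def ιι : ZZ →+* PP := RingHom.prodMap ι ι

theorem ιι_apply (z : ZZ) : ιι z = (ι z.1, ι z.2) := rfl

/-- `G` -/
def Gz : ZZ := (gA (C s') x, gB (C s') (C e) (Uop p x))
/-- `μ` -/
def Mz : ZZ := (muA (C s') x (sigmaSeries 3),
  muB (C s') (C e) (Uop p x) (expand p hp (sigmaSeries 3)))
/-- `K` -/
def Kz : ZZ := (kA (C s') x (sigmaSeries 3) t,
  kB (C s') (C e) (Uop p x) (expand p hp (sigmaSeries 3)) (expand p hp t))
/-- `E₄` as integer pair -/
def E4q : ZZ := (E4z, (8 * C e - 1) ^ 4 * expand p hp E4z)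
/-- `E₆` as integer pair -/
def E6q : ZZ := (E6z, (8 * C e - 1) ^ 6 * expand p hp E6z)
/-- the odd constant `s = 2 s' + 1` -/
def sz : ZZ := (2 * C s' + 1, 2 * C s' + 1)

variable {t} (ht : sigmaSeries 5 = sigmaSeries 3 + 2 * t)

include ht in
theorem E6z_eq : E6z = 1 - 504 * (sigmaSeries 3 + 2 * t) := by
  rw [E6z, ht]

theorem expand_ofNat' (n : ℕ) [n.AtLeastTwo] :
    expand p hp (OfNat.ofNat n : PowerSeries ℤ) = OfNat.ofNat n := by
  have h : (OfNat.ofNat n : PowerSeries ℤ) = C ((OfNat.ofNat n : ℤ)) := by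
    rw [map_ofNat]
  rw [h, expand_C]

theorem expand_E4z : expand p hp E4z = 1 + 240 * expand p hp (sigmaSeries 3) := by
  rw [E4z, map_add, map_one, map_mul, expand_ofNat']

include ht in
theorem expand_E6z : expand p hp E6z =
    1 - 504 * (expand p hp (sigmaSeries 3) + 2 * expand p hp t) := by
  rw [E6z_eq ht, map_sub, map_one, map_mul, map_add, map_mul, expand_ofNat', expand_ofNat']

theorem Gz_sq : Gz p e s' x * Gz p e s' x =
    16 * Mz p hp e s' x + sz s' ^ 2 * E4q p hp e := by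
  refine Prod.ext ?_ ?_
  · have := sixteen_muA (C s') x (sigmaSeries 3)
    simp only [Gz, Mz, sz, E4q, Prod.fst_mul, Prod.fst_add, Prod.pow_fst, Prod.fst_ofNat, E4z]
    linear_combination -this
  · have := sixteen_muB (C s') (C e) (Uop p x) (expand p hp (sigmaSeries 3))
    simp only [Gz, Mz, sz, E4q, Prod.snd_mul, Prod.snd_add, Prod.pow_snd, Prod.snd_ofNat,
      expand_E4z]
    linear_combination -this

include ht in
theorem eight_Kz : 8 * Kz p hp e s' x t =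
    Gz p e s' x * E4q p hp e - sz s' * E6q p hp e := by
  refine Prod.ext ?_ ?_
  · have := eight_kA (C s') x (sigmaSeries 3) t
    simp only [Gz, Kz, sz, E4q, E6q, Prod.fst_mul, Prod.fst_sub, Prod.fst_ofNat, E4z, E6z_eq ht]
    linear_combination this
  · have := eight_kB (C s') (C e) (Uop p x) (expand p hp (sigmaSeries 3)) (expand p hp t)
    simp only [Gz, Kz, sz, E4q, E6q, Prod.snd_mul, Prod.snd_sub, Prod.snd_ofNat,
      expand_E4z, expand_E6z p hp ht]
    linear_combination this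

theorem two_dvd_GM_sub_K : (2 : ZZ) ∣ Gz p e s' x * Mz p hp e s' x - Kz p hp e s' x t := by
  obtain ⟨za, hza⟩ := two_dvd_A (C s') x (sigmaSeries 3) t
  obtain ⟨zb, hzb⟩ := two_dvd_B (C s') (C e) (Uop p x) (expand p hp (sigmaSeries 3))
    (expand p hp t)
  refine ⟨(za, zb), Prod.ext ?_ ?_⟩
  · simpa [Gz, Mz, Kz] using hza
  · simpa [Gz, Mz, Kz] using hzb

theorem pow_dvd_GM_pow_sub (k : ℕ) : (2 ^ (k + 2) : ZZ) ∣
    (Gz p e s' x * Mz p hp e s' x) ^ 2 ^ (k + 1) - Kz p hp e s' x t ^ 2 ^ (k + 1) := by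
  have h := dvd_sub_pow_of_dvd_sub (R := ZZ) (p := 2)
    (by exact_mod_cast two_dvd_GM_sub_K p hp e s' x (t := t)) (k + 1)
  exact_mod_cast h

end Inst

/-! ### the integrally normalised trace on integer pairs -/

/-- `p^N a + U_p b` -/
def trz (p N : ℕ) (z : ZZ) : PowerSeries ℤ := (p : PowerSeries ℤ) ^ N * z.1 + Uop p z.2

theorem ι_trz (N : ℕ) (z : ZZ) : ι (trz p N z) = tr p ((N : ℤ) + 1) (ιι z) := by
  simp only [trz, tr, ιι_apply, map_add]
  rw [ι_smul_natCast_pow, ι_Uop, add_sub_cancel_right, zpow_natCast]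

theorem tr_algebraMap_mul (w : ℤ) (c : ℂ) (x : PP) :
    tr p w (algebraMap ℂ PP c * x) = c • tr p w x := by
  rw [← Algebra.smul_def, tr_smul]

theorem tr_natCast_mul (w : ℤ) (n : ℕ) (x : PP) :
    tr p w ((n : PP) * x) = (n : ℂ) • tr p w x := by
  rw [← tr_algebraMap_mul, map_natCast]

theorem tr_intCast_mul (w : ℤ) (n : ℤ) (x : PP) :
    tr p w ((n : PP) * x) = (n : ℂ) • tr p w x := by
  rw [← tr_algebraMap_mul, map_intCast]

section Inst2

variable (p : ℕ) (hp : p ≠ 0) (e s' : ℤ) (hpe : (p : ℤ) = 8 * e - 1)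

include hpe in
theorem natCast_eq : (p : PowerSeries ℤ) = 8 * C e - 1 := by
  have h : (p : PowerSeries ℤ) = C ((p : ℤ)) := by
    rw [map_natCast]
  rw [h, hpe, map_sub, map_mul, map_one, map_ofNat]

include hpe in
theorem ιι_E4q : ιι (E4q p hp e) = lvl p hp 4 (ι E4z) := by
  simp only [ιι_apply, E4q, lvl]
  rw [← natCast_eq p e hpe, ι_smul_natCast_pow, ι_expand]
  rfl

include hpe in
theorem ιι_E6q : ιι (E6q p hp e) = lvl p hp 6 (ι E6z) := by
  simp only [ιι_apply, E6q, lvl]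
  rw [← natCast_eq p e hpe, ι_smul_natCast_pow, ι_expand]
  rfl

theorem sz_eq : sz s' = ((2 * s' + 1 : ℤ) : ZZ) := by
  refine Prod.ext ?_ ?_ <;> simp [sz]

theorem ιι_sz : ιι (sz s') = ((2 * s' + 1 : ℤ) : PP) := by
  rw [sz_eq, map_intCast]

end Inst2

end FrickeSys

end

end Fermat.Agent.S16.H131
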