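import Mathlib
import Fermat.Agent.S16.H131.U4c

/-!
# S16 / helper131: U4, final assembly

`FrickeSys.U4`: if `8 ∣ p + 1`, no weight-2 form of an abstract Fricke system of level `p` has
`q`-expansion `s + 8 x` with `s` odd, `x` integral.
-/

set_option autoImplicit false

namespace Fermat.Agent.S16.H131

open PowerSeries
open Fermat.Agent.S22T

noncomputable section

namespace FrickeSys

variable {p : ℕ} {hp : p ≠ 0} (S : FrickeSys p hp)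

theorem ofNat_mul_eq_smul (n : ℕ) [n.AtLeastTwo] (x : PP) :
    (OfNat.ofNat n : PP) * x = (OfNat.ofNat n : ℂ) • x := by
  rw [Algebra.smul_def, map_ofNat]

theorem Uop_ofNat_mul (n : ℕ) [n.AtLeastTwo] (x : PowerSeries ℤ) :
    Uop p ((OfNat.ofNat n : PowerSeries ℤ) * x) = OfNat.ofNat n * Uop p x := by
  have h : (OfNat.ofNat n : PowerSeries ℤ) = C (OfNat.ofNat n : ℤ) := by rw [map_ofNat]
  ext k
  rw [coeff_Uop, h, coeff_C_mul, coeff_C_mul, coeff_Uop]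

/-- identify the Fricke side of `G`. -/
theorem snd_eq_of_form_two (e s' : ℤ) (hpe : (p : ℤ) = 8 * e - 1) (x : PowerSeries ℤ)
    (b : PowerSeries ℂ) (hF : S.Form 2 (ι (gA (C s') x), b)) :
    b = ι (gB (C s') (C e) (Uop p x)) := by
  have h := S.fricke_two hF
  simp only at h
  rw [h, ← ι_Uop]
  have hU : Uop p (gA (C s') x) = (2 * C s' + 1) + 8 * Uop p x := by
    have h2 : (2 * C s' + 1 : PowerSeries ℤ) = C (2 * s' + 1) := by
      rw [map_add, map_mul, map_one, map_ofNat]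
    rw [gA, map_add, h2, Uop_C p hp, Uop_ofNat_mul]
  rw [hU, gB, ← natCast_eq p e hpe]
  have : ι (-(p : PowerSeries ℤ) * (2 * C s' + 1 + 8 * Uop p x)) =
      -((p : ℂ) • ι (2 * C s' + 1 + 8 * Uop p x)) := by
    rw [neg_mul, map_neg, map_mul, map_natCast, smul_eq_C_mul, map_natCast]
  rw [this]

/-- Stage C: the final 2-adic contradiction (pure integers). -/
theorem int_contra (p k N : ℕ) (hk : p + 1 < 2 ^ (k + 2)) (s c₁ d : ℤ) (hs : Odd s)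
    (hpodd : Odd (p : ℤ))
    (h : (8 : ℤ) ^ (2 * 2 ^ k) * 2 ^ (k + 2) * c₁ - 8 ^ (2 * 2 ^ k) * 16 ^ 2 ^ k * d +
      s ^ (2 * 2 ^ k) * ((p : ℤ) ^ N * (1 + p)) * (-1728) ^ 2 ^ k = 0) : False := by
  set m : ℕ := 2 ^ k with hm
  have h1728 : (-1728 : ℤ) ^ m = (-27) ^ m * 8 ^ (2 * m) := by
    rw [pow_mul, ← mul_pow]; norm_num
  rw [h1728] at h
  have h8 : (8 : ℤ) ^ (2 * m) ≠ 0 := pow_ne_zero _ (by norm_num)
  have h' : (2 : ℤ) ^ (k + 2) * c₁ - 16 ^ m * d + s ^ (2 * m) * ((p : ℤ) ^ N * (1 + p)) * (-27) ^ m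
      = 0 := by
    apply mul_left_cancel₀ h8
    rw [mul_zero, ← h]
    ring
  have hkm : k + 2 ≤ 4 * m := by
    have : k < 2 ^ k := Nat.lt_two_pow_self
    omega
  have h16 : (16 : ℤ) ^ m = 2 ^ (k + 2) * 2 ^ (4 * m - (k + 2)) := by
    rw [← pow_add, Nat.add_sub_cancel' hkm, pow_mul]; norm_num
  have hdvd : (2 : ℤ) ^ (k + 2) ∣ (s ^ (2 * m) * (p : ℤ) ^ N * (-27) ^ m) * (1 + p) := by
    refine ⟨2 ^ (4 * m - (k + 2)) * d - c₁, ?_⟩
    rw [h16] at h'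
    linear_combination h'
  have hodd : Odd (s ^ (2 * m) * (p : ℤ) ^ N * (-27) ^ m) := by
    refine Odd.mul (Odd.mul hs.pow hpodd.pow) (Odd.pow ?_)
    exact ⟨-14, by norm_num⟩
  have hcop : IsCoprime ((2 : ℤ) ^ (k + 2)) (s ^ (2 * m) * (p : ℤ) ^ N * (-27) ^ m) :=
    IsCoprime.pow_left (Int.isCoprime_two_left.mpr hodd)
  have hd2 : (2 : ℤ) ^ (k + 2) ∣ (1 + p : ℤ) := hcop.dvd_of_dvd_mul_left hdvd
  have hle := Int.le_of_dvd (by positivity) hd2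
  have hk' : ((p : ℤ) + 1) < 2 ^ (k + 2) := by exact_mod_cast hk
  linarith

section Main

variable (e s' : ℤ) (hpe : (p : ℤ) = 8 * e - 1) (x : PowerSeries ℤ) {t : PowerSeries ℤ}
  (ht : sigmaSeries 5 = sigmaSeries 3 + 2 * t)

include hpe in
theorem form_G (b : PowerSeries ℂ) (hF : S.Form 2 (ι (gA (C s') x), b)) :
    S.Form 2 (ιι (Gz p e s' x)) := by
  have hb := S.snd_eq_of_form_two e s' hpe x b hF
  rw [ιι_apply]
  simp only [Gz]
  rwa [hb] at hF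

include hpe in
theorem form_E4 : S.Form 4 (ιι (E4q p hp e)) := by
  rw [ιι_E4q p hp e hpe]
  exact S.form_lvl isL1_E4

include hpe in
theorem form_E6 : S.Form 6 (ιι (E6q p hp e)) := by
  rw [ιι_E6q p hp e hpe]
  exact S.form_lvl isL1_E6

theorem form_s : S.Form 0 (ιι (sz s')) := by
  rw [ιι_sz]
  exact S.form_intCast _

theorem ιι_Gz_sq : ιι (Gz p e s' x) * ιι (Gz p e s' x) =
    16 * ιι (Mz p hp e s' x) + ιι (sz s') ^ 2 * ιι (E4q p hp e) := by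
  have := congrArg ιι (Gz_sq p hp e s' x)
  simpa only [map_mul, map_add, map_pow, map_ofNat] using this

include ht in
theorem ιι_eight_Kz : 8 * ιι (Kz p hp e s' x t) =
    ιι (Gz p e s' x) * ιι (E4q p hp e) - ιι (sz s') * ιι (E6q p hp e) := by
  have := congrArg ιι (eight_Kz p hp e s' x ht)
  simpa only [map_mul, map_sub, map_ofNat] using this

include hpe in
theorem form_M (b : PowerSeries ℂ) (hF : S.Form 2 (ι (gA (C s') x), b)) :
    S.Form 4 (ιι (Mz p hp e s' x)) := by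
  have hG := S.form_G e s' hpe x b hF
  have hE4 := S.form_E4 e hpe
  have hs := S.form_s s'
  have h1 := ιι_Gz_sq (hp := hp) e s' x
  have h2 : ιι (Mz p hp e s' x) = (1 / 16 : ℂ) •
      (ιι (Gz p e s' x) * ιι (Gz p e s' x) - ιι (sz s') ^ 2 * ιι (E4q p hp e)) := by
    rw [h1, add_sub_cancel_right, ofNat_mul_eq_smul, smul_smul]
    norm_num
  rw [h2]
  refine S.smul _ (S.sub (S.congr_weight (by norm_num) (S.mul hG hG)) ?_)
  exact S.congr_weight (by norm_num) (S.mul (S.pow hs 2) hE4)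

include hpe ht in
theorem form_K (b : PowerSeries ℂ) (hF : S.Form 2 (ι (gA (C s') x), b)) :
    S.Form 6 (ιι (Kz p hp e s' x t)) := by
  have hG := S.form_G e s' hpe x b hF
  have hE4 := S.form_E4 e hpe
  have hE6 := S.form_E6 e hpe
  have hs := S.form_s s'
  have h1 := ιι_eight_Kz (hp := hp) e s' x ht
  have h2 : ιι (Kz p hp e s' x t) = (1 / 8 : ℂ) •
      (ιι (Gz p e s' x) * ιι (E4q p hp e) - ιι (sz s') * ιι (E6q p hp e)) := by
    rw [← h1, ofNat_mul_eq_smul, smul_smul]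
    norm_num
  rw [h2]
  refine S.smul _ (S.sub (S.congr_weight (by norm_num) (S.mul hG hE4)) ?_)
  exact S.congr_weight (by norm_num) (S.mul hs hE6)

include hpe ht in
/-- Stage A: the traced expansion identity. -/
theorem stageA (b : PowerSeries ℂ) (hF : S.Form 2 (ι (gA (C s') x), b)) (k : ℕ) (Dz : ZZ)
    (hDz : (Gz p e s' x * Mz p hp e s' x) ^ (2 * 2 ^ k) - Kz p hp e s' x t ^ (2 * 2 ^ k) =
      2 ^ (k + 2) * Dz) :
    IsL1 (12 * ((2 ^ k : ℕ) : ℤ)) (ι (trz p (12 * 2 ^ k - 1) Dz)) ∧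
    IsL1 (12 * ((2 ^ k : ℕ) : ℤ)) (ι (trz p (12 * 2 ^ k - 1) (Mz p hp e s' x ^ (3 * 2 ^ k)))) ∧
    ∃ H₀ : PowerSeries ℂ, IsL1 (12 * ((2 ^ k : ℕ) : ℤ) - 4) H₀ ∧
      ((8 ^ (2 * 2 ^ k) * 2 ^ (k + 2) : ℕ) : ℂ) • ι (trz p (12 * 2 ^ k - 1) Dz) =
        ((8 ^ (2 * 2 ^ k) * 16 ^ 2 ^ k : ℕ) : ℂ) •
            ι (trz p (12 * 2 ^ k - 1) (Mz p hp e s' x ^ (3 * 2 ^ k))) -
          (((2 * s' + 1) ^ (2 * 2 ^ k) : ℤ) : ℂ) •
            (((p : ℂ) ^ (12 * ((2 ^ k : ℕ) : ℤ) - 1) * (1 + p)) • (ι E6z) ^ (2 * 2 ^ k)) +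
          (p : ℂ) ^ (4 : ℤ) • (ι E4z * H₀) := by
  set m : ℕ := 2 ^ k with hm
  have hm1 : 1 ≤ m := Nat.one_le_two_pow
  set N : ℕ := 12 * m - 1 with hN
  have hNw : ((N : ℤ) + 1) = 12 * (m : ℤ) := by
    have : N + 1 = 12 * m := by omega
    exact_mod_cast this
  have hG := S.form_G e s' hpe x b hF
  have hE4 := S.form_E4 e hpe
  have hE6 := S.form_E6 e hpe
  have hs := S.form_s s'
  have hM := S.form_M e s' hpe x b hF
  have hK := S.form_K e s' hpe x ht b hF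
  have h1 := ιι_Gz_sq (hp := hp) e s' x
  have h2 := ιι_eight_Kz (hp := hp) e s' x ht
  obtain ⟨Q, hQ, hQe⟩ := S.exists_pow_eq_J1 hM hE4 (S.form_ofNat 16)
    (S.congr_weight (by norm_num) (S.pow hs 2)) m
  obtain ⟨Q₂, hQ₂, hQ₂e⟩ := S.exists_pow_eq_J2 hG hE4 hE6 hs (2 * m)
  have hfin := final_algebra (ιι (Gz p e s' x)) (ιι (Mz p hp e s' x)) (ιι (Kz p hp e s' x t))
    (ιι (E4q p hp e)) (ιι (E6q p hp e)) Q Q₂ (ιι (sz s')) m h1 h2 hQe hQ₂e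
  -- the difference is `2^(k+2) * Dz`
  have hD : (ιι (Gz p e s' x) * ιι (Mz p hp e s' x)) ^ (2 * m) - ιι (Kz p hp e s' x t) ^ (2 * m) =
      ((2 ^ (k + 2) : ℕ) : PP) * ιι Dz := by
    have := congrArg ιι hDz
    simp only [map_mul, map_sub, map_pow, map_ofNat] at this
    rw [this]
    push_cast
    rfl
  -- forms
  have hP : S.Form (12 * (m : ℤ)) ((ιι (Gz p e s' x) * ιι (Mz p hp e s' x)) ^ (2 * m)) :=
    S.congr_weight (by push_cast; ring) (S.pow (S.mul hG hM) (2 * m))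
  have hKp : S.Form (12 * (m : ℤ)) (ιι (Kz p hp e s' x t) ^ (2 * m)) :=
    S.congr_weight (by push_cast; ring) (S.pow hK (2 * m))
  have hMp : S.Form (12 * (m : ℤ)) (ιι (Mz p hp e s' x) ^ (3 * m)) :=
    S.congr_weight (by push_cast; ring) (S.pow hM (3 * m))
  have hX : S.Form (12 * (m : ℤ) - 4)
      (((8 ^ (2 * m) : ℕ) : PP) * Q * ιι (Mz p hp e s' x) ^ (2 * m) - Q₂) := by
    refine S.sub ?_ (S.congr_weight (by push_cast; ring) hQ₂)
    exact S.congr_weight (by push_cast; ring)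
      (S.mul (S.mul (S.form_natCast _) hQ) (S.pow hM (2 * m)))
  refine ⟨?_, ?_, tr p (12 * (m : ℤ) - 4)
    (((8 ^ (2 * m) : ℕ) : PP) * Q * ιι (Mz p hp e s' x) ^ (2 * m) - Q₂), S.isL1_tr hX, ?_⟩
  · -- IsL1 of T_D
    have h := S.isL1_tr (S.sub hP hKp)
    rw [hD, tr_natCast_mul, ← hNw, ← ι_trz] at h
    have h' := h.smul (((2 ^ (k + 2) : ℕ) : ℂ)⁻¹)
    rw [smul_smul, inv_mul_cancel₀ (Nat.cast_ne_zero.mpr (by positivity)), one_smul] at h'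
    rw [← hNw]
    exact h'
  · have h := S.isL1_tr hMp
    rw [← map_pow, ← hNw, ← ι_trz] at h
    rw [← hNw]
    exact h
  · -- the equation
    have hT := congrArg (tr p (12 * (m : ℤ))) hfin
    rw [hD] at hT
    have e8 : (8 : PP) ^ (2 * m) = ((8 ^ (2 * m) : ℕ) : PP) := by push_cast; rfl
    have e816 : (8 : PP) ^ (2 * m) * 16 ^ m = ((8 ^ (2 * m) * 16 ^ m : ℕ) : PP) := by
      push_cast; rfl
    have es : ιι (sz s') ^ (2 * m) = (((2 * s' + 1) ^ (2 * m) : ℤ) : PP) := by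
      rw [ιι_sz]; push_cast; rfl
    have eE6 : ιι (E6q p hp e) ^ (2 * m) = lvl p hp (12 * (m : ℤ)) (ι E6z ^ (2 * m)) := by
      rw [ιι_E6q p hp e hpe, lvl_pow]
      congr 1
      push_cast; ring
    rw [e816, e8, ← mul_assoc, ← Nat.cast_mul, tr_natCast_mul, tr_add, tr_sub, tr_natCast_mul,
      es, tr_intCast_mul, eE6, tr_lvl, ιι_E4q p hp e hpe, tr_lvl_mul, ← map_pow, ← hNw,
      ← ι_trz, ← ι_trz] at hT
    rw [hNw] at hT
    exact hT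

include hpe in
/-- **U4** in parametrised form. -/
theorem U4_core (b : PowerSeries ℂ) (hF : S.Form 2 (ι (gA (C s') x), b)) : False := by
  obtain ⟨t, ht⟩ := exists_sigma_five_eq
  obtain ⟨DD, hDD⟩ := pow_dvd_GM_pow_sub p hp e s' x (t := t) p
  have h2k : 2 ^ (p + 1) = 2 * 2 ^ p := by ring
  rw [h2k] at hDD
  obtain ⟨hTD, hTM, H₀, hH₀, hEq⟩ := S.stageA e s' hpe x ht b hF p DD hDD
  obtain ⟨c₁, h₁, hh₁, hc₁⟩ := exists_top_coeff (2 ^ p) _ hTD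
  obtain ⟨d, h₂, hh₂, hd⟩ := exists_top_coeff (2 ^ p) _ hTM
  obtain ⟨h₃, hh₃, hE6⟩ := exists_E6_pow_eq (2 ^ p)
  rw [hc₁, hd, hE6] at hEq
  set m : ℕ := 2 ^ p with hm
  have hm1 : 1 ≤ m := Nat.one_le_two_pow
  set N : ℕ := 12 * m - 1 with hN
  have hNw : 12 * (m : ℤ) - 1 = (N : ℤ) := by
    have : N + 1 = 12 * m := by omega
    have h2 : ((N : ℤ) + 1) = 12 * (m : ℤ) := by exact_mod_cast this
    linarith
  rw [hNw, zpow_natCast] at hEq
  set a₁ : ℂ := ((8 ^ (2 * m) * 2 ^ (p + 2) : ℕ) : ℂ) with ha₁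
  set a₂ : ℂ := ((8 ^ (2 * m) * 16 ^ m : ℕ) : ℂ) with ha₂
  set a₃ : ℂ := (((2 * s' + 1) ^ (2 * m) : ℤ) : ℂ) with ha₃
  set a₄ : ℂ := (p : ℂ) ^ N * (1 + p) with ha₄
  set a₅ : ℂ := (p : ℂ) ^ (4 : ℤ) with ha₅
  have hH : IsL1 (12 * ((m : ℕ) : ℤ) - 4)
      ((-a₁) • h₁ + a₂ • h₂ + (-(a₃ * a₄)) • h₃ + a₅ • H₀) :=
    (((hh₁.smul _).add (hh₂.smul _)).add (hh₃.smul _)).add (hH₀.smul _)
  have key : (a₁ * c₁ - a₂ * d + a₃ * a₄ * (-1728) ^ m) • (ι Dz) ^ m =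
      ι E4z * ((-a₁) • h₁ + a₂ • h₂ + (-(a₃ * a₄)) • h₃ + a₅ • H₀) := by
    simp only [smul_eq_C_mul, map_mul, map_sub, map_add, map_neg, map_pow] at hEq ⊢
    linear_combination hEq
  have hβ := eq_zero_of_smul_D_pow_eq m _ _ hH key
  have hint : (8 : ℤ) ^ (2 * 2 ^ p) * 2 ^ (p + 2) * c₁ - 8 ^ (2 * 2 ^ p) * 16 ^ 2 ^ p * d +
      (2 * s' + 1) ^ (2 * 2 ^ p) * ((p : ℤ) ^ N * (1 + p)) * (-1728) ^ 2 ^ p = 0 := by
    have : ((( (8 : ℤ) ^ (2 * 2 ^ p) * 2 ^ (p + 2) * c₁ - 8 ^ (2 * 2 ^ p) * 16 ^ 2 ^ p * d +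
      (2 * s' + 1) ^ (2 * 2 ^ p) * ((p : ℤ) ^ N * (1 + p)) * (-1728) ^ 2 ^ p : ℤ)) : ℂ) = 0 := by
      rw [← hβ, ha₁, ha₂, ha₃, ha₄]
      push_cast
      ring
    exact_mod_cast this
  have hpodd : Odd (p : ℤ) := ⟨4 * e - 1, by rw [hpe]; ring⟩
  have hk : p + 1 < 2 ^ (p + 2) := by
    have : p + 2 < 2 ^ (p + 2) := Nat.lt_two_pow_self
    omega
  exact int_contra p p N hk (2 * s' + 1) c₁ d ⟨s', rfl⟩ hpodd hint

end Main

/-- **U4.**  If `8 ∣ p + 1`, no weight-2 form of an abstract Fricke system of level `p` has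
`q`-expansion `s + 8 x` with `s` odd and `x` an integral power series. -/
theorem U4 (h8 : 8 ∣ p + 1) (s : ℤ) (hs : Odd s) (x : PowerSeries ℤ) (b : PowerSeries ℂ)
    (hF : S.Form 2 (ι (C s + 8 * x), b)) : False := by
  obtain ⟨e, he⟩ := h8
  obtain ⟨s', rfl⟩ := hs
  have hpe : (p : ℤ) = 8 * (e : ℤ) - 1 := by
    have : ((p + 1 : ℕ) : ℤ) = ((8 * e : ℕ) : ℤ) := by rw [he]
    push_cast at this
    linarith
  refine S.U4_core (e : ℤ) s' hpe x b ?_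
  have : gA (C s') x = C (2 * s' + 1) + 8 * x := by
    rw [gA, map_add, map_mul, map_one, map_ofNat]
  rwa [this]

end FrickeSys

end

end Fermat.Agent.S16.H131
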