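import Fermat.Agent.S16.Interface
import Fermat.Agent.S16.H131.U4
import Fermat.Agent.S16.H377.SkelFR
import Fermat.Agent.S16.H260.QCalc
import Fermat.Agent.S20.C0_helper516

/-!
# S16 / helper131: WP U4 in EXACT skeleton shape

The abstract Fricke system `FrickeSys` (file `FrickeSys.lean`) is instantiated with
`Form w (a, b) := ∃ F ∈ MF (Gamma0 p) w, q(F) = a ∧ q(F^) = b`, using the landed FR lemmas
(`H377.FR`), the function-level `q`-expansion calculus (`H260`) and the level-one bridge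
(`S20.C0h516.mem_MF_top_iff_exists`).  Then `FrickeSys.U4` gives the skeleton statement `U4`.
-/

set_option autoImplicit false

noncomputable section

namespace Fermat.Agent.S16.H131

open UpperHalfPlane ModularForm CongruenceSubgroup MatrixGroups ModularFormClass
open Fermat.Agent.S20 (MF SF)
open Fermat.Agent.S16
open scoped Manifold

section Inst

variable (p : ℕ) [hpp : Fact p.Prime]

/-- products of forms for `Γ₀(p)` -/
theorem mul_mem_MF_Gamma0 {a k : ℤ} {f g : ℍ → ℂ} (hf : f ∈ MF (Gamma0 p) a)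
    (hg : g ∈ MF (Gamma0 p) k) : f * g ∈ MF (Gamma0 p) (a + k) := by
  obtain ⟨hf1, hf2, hf3⟩ := hf
  obtain ⟨hg1, hg2, hg3⟩ := hg
  refine ⟨hf1.mul hg1, fun γ hγ => ?_, fun γ => ?_⟩
  · rw [ModularForm.mul_slash_SL2, hf2 γ hγ, hg2 γ hγ]
  · rw [ModularForm.mul_slash_SL2]
    exact (hf3 γ).mul (hg3 γ)

/-- level one forms are forms for `Γ₀(p)` -/
theorem MF_top_le_Gamma0 (k : ℤ) : MF ⊤ k ≤ MF (Gamma0 p) k :=
  fun _ hf => ⟨hf.1, fun γ _ => hf.2.1 γ (Subgroup.mem_top _), hf.2.2⟩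

theorem analyticAt_of_mem {k : ℤ} {F : ℍ → ℂ} (hF : F ∈ MF (Gamma0 p) k) :
    AnalyticAt ℂ (cuspFunction 1 F) 0 :=
  (H260.nice_of_mem_MF_Gamma0 hF).analyticAt

/-- `q(V_p F) = expand p q(F)` -/
theorem qExpansion_Vp {k : ℤ} {F : ℍ → ℂ} (hF : F ∈ MF ⊤ k) :
    qExpansion 1 (Vp p F) = PowerSeries.expand p hpp.out.ne_zero (qExpansion 1 F) := by
  ext n
  have h := (H260.qCoeff_Vp (H260.nice_of_mem_MF_top hF) hpp.out.pos).2 n
  rw [PowerSeries.coeff_expand]
  exact h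

/-- `q(U_p F) = Uop p q(F)` -/
theorem qExpansion_heckeU {k : ℤ} {F : ℍ → ℂ} (hF : F ∈ MF (Gamma0 p) k) (w : ℤ) :
    qExpansion 1 (heckeU w p F) = Uop p (qExpansion 1 F) := by
  ext n
  have h := H260.qCoeff_heckeU (H260.nice_of_mem_MF_Gamma0 hF) w hpp.out.ne_zero n
  rw [coeff_Uop, mul_comm]
  exact h

/-- The Fricke system of `Γ₀(p)`. -/
def gammaSys : FrickeSys p hpp.out.ne_zero where
  Form w x := ∃ F ∈ MF (Gamma0 p) w, qExpansion 1 F = x.1 ∧ qExpansion 1 (hat p w F) = x.2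
  add := by
    rintro w x y ⟨F, hF, hF1, hF2⟩ ⟨G, hG, hG1, hG2⟩
    refine ⟨F + G, Submodule.add_mem _ hF hG, ?_, ?_⟩
    · rw [qExpansion_add (analyticAt_of_mem p hF) (analyticAt_of_mem p hG), hF1, hG1]
      rfl
    · rw [H377.FR.hat_add, qExpansion_add
        (analyticAt_of_mem p (H377.FR.hat_mem_MF p hF))
        (analyticAt_of_mem p (H377.FR.hat_mem_MF p hG)), hF2, hG2]
      rfl
  smul := by
    rintro w x c ⟨F, hF, hF1, hF2⟩
    refine ⟨c • F, Submodule.smul_mem _ c hF, ?_, ?_⟩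
    · rw [qExpansion_smul (analyticAt_of_mem p hF), hF1]
      rfl
    · rw [H377.FR.hat_smul, qExpansion_smul (analyticAt_of_mem p (H377.FR.hat_mem_MF p hF)), hF2]
      rfl
  mul := by
    rintro w w' x y ⟨F, hF, hF1, hF2⟩ ⟨G, hG, hG1, hG2⟩
    refine ⟨F * G, mul_mem_MF_Gamma0 p hF hG, ?_, ?_⟩
    · rw [qExpansion_mul (analyticAt_of_mem p hF) (analyticAt_of_mem p hG), hF1, hG1]
      rfl
    · rw [H377.FR.hat_mul, qExpansion_mul
        (analyticAt_of_mem p (H377.FR.hat_mem_MF p hF))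
        (analyticAt_of_mem p (H377.FR.hat_mem_MF p hG)), hF2, hG2]
      rfl
  ofL1 := by
    rintro w a ⟨f, hf⟩
    have hf' : (⇑f : ℍ → ℂ) ∈ MF ⊤ w :=
      Fermat.Agent.S20.C0h516.mem_MF_top_iff_exists.mpr ⟨f, rfl⟩
    refine ⟨⇑f, MF_top_le_Gamma0 p w hf', hf, ?_⟩
    rw [H377.FR.hat_levelOne p hf',
      qExpansion_smul (analyticAt_of_mem p (H377.FR.Vp_mem_MF p hf')), qExpansion_Vp p hf', hf]
  symm := by
    rintro w x hw ⟨F, hF, hF1, hF2⟩
    refine ⟨hat p w F, H377.FR.hat_mem_MF p hF, hF2, ?_⟩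
    rw [H377.FR.hat_hat p hw, qExpansion_smul (analyticAt_of_mem p hF), hF1]
  trace := by
    rintro w x ⟨F, hF, hF1, hF2⟩
    obtain ⟨g, hg⟩ := Fermat.Agent.S20.C0h516.mem_MF_top_iff_exists.mp (H377.FR.tr_mem_MF p hF)
    refine ⟨g, ?_⟩
    have hhat := H377.FR.hat_mem_MF p hF
    have hU : AnalyticAt ℂ (cuspFunction 1 (heckeU w p (hat p w F))) 0 :=
      ((H260.nice_of_mem_MF_Gamma0 hhat).heckeU w p).analyticAt
    have hU' : AnalyticAt ℂ (cuspFunction 1 (((p : ℂ) ^ (1 - w)) • heckeU w p (hat p w F))) 0 :=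
      (((H260.nice_of_mem_MF_Gamma0 hhat).heckeU w p).smul _).analyticAt
    rw [hg, tr, qExpansion_add (analyticAt_of_mem p hF) hU', qExpansion_smul hU,
      qExpansion_heckeU p hhat, hF1, hF2]

end Inst

/-- **WP U4**, exact skeleton statement.
No `G ∈ M₂(Γ₀(p))`, `p ≡ 7 mod 8`, has integral `q`-expansion `≡ odd constant mod 8`. -/
theorem U4 (p : ℕ) [Fact p.Prime] (hp8 : p % 8 = 7) {G : ℍ → ℂ} (hG : G ∈ MF (Gamma0 p) 2)
    (s : ℤ) (hs : Odd s) (h0 : qCoeff G 0 = (s : ℂ))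
    (hcong : ∀ k : ℕ, 1 ≤ k → ∃ m : ℤ, qCoeff G k = 8 * (m : ℂ)) : False := by
  classical
  choose! m hm using hcong
  let x : PowerSeries ℤ := PowerSeries.mk fun k => if k = 0 then 0 else m k
  have hq : qExpansion 1 G = ι (PowerSeries.C s + 8 * x) := by
    ext k
    have h8 : (8 : PowerSeries ℤ) = PowerSeries.C (8 : ℤ) := by
      rw [map_ofNat]
    rw [ι, PowerSeries.coeff_map, map_add, h8, PowerSeries.coeff_C_mul, PowerSeries.coeff_C]
    simp only [x, PowerSeries.coeff_mk]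
    by_cases hk : k = 0
    · subst hk
      simpa [qCoeff] using h0
    · have := hm k (Nat.one_le_iff_ne_zero.mpr hk)
      simp only [qCoeff] at this
      rw [this]
      simp [hk]
  have h8 : 8 ∣ p + 1 := by omega
  refine (gammaSys p).U4 h8 s hs x (qExpansion 1 (hat p 2 G)) ?_
  exact ⟨G, hG, hq, rfl⟩

end Fermat.Agent.S16.H131
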